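import Fermat.Agent.RT.Assembly.Models.Red
import Fermat.Agent.RT.Assembly.Diamond
import Fermat.Agent.RT.TW.AddPrimes
import Mathlib.RingTheory.OrzechProperty

/-!
# Two local parts with the same reduction

If two characters agree after a surjective change of coefficients, a basis of one part has a
counterpart in the other with the same reduction, and in such bases two polynomials with the same
reduction have congruent matrices.
-/

set_option autoImplicit false
set_option linter.style.haveILetI false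

noncomputable section

open IsLocalRing

namespace Fermat.Agent.RT.Assembly.Models

open TW MvPolynomial

variable {A A' : Type} [CommRing A] [CommRing A'] {N N₀ M : ℕ} {Φ Φ' : MulChar (ZMod N) A}
  {Φ₀ : MulChar (ZMod N₀) A'} {f : A →+* A'} {h : N ∣ M} {h₀ : N₀ ∣ M}
  (hΦ : ∀ a : ℤ, IsUnit (a : ZMod N) → f (Φ a) = Φ₀ a)
  (hΦ' : ∀ a : ℤ, IsUnit (a : ZMod N) → f (Φ' a) = Φ₀ a)
  {m : Ideal (HeckePoly A)} {e : Module.End A (heckeH1 Φ M h)}
  {e' : Module.End A (heckeH1 Φ' M h)} {D : ℕ}

theorem mem_smul_top_of_coe_mem {R H : Type*} [CommRing R] [AddCommGroup H] [Module R H]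
    {I : Ideal R} {P : Submodule R H} (d : P) (hd : (d : H) ∈ I • P) :
    d ∈ I • (⊤ : Submodule R P) := by
  have hmap : (I • (⊤ : Submodule R P)).map P.subtype = I • P := by
    rw [Submodule.map_smul'', Submodule.map_subtype_top]
  rw [← hmap] at hd
  obtain ⟨d', hd', hdd⟩ := hd
  obtain rfl : d' = d := Subtype.ext hdd
  exact hd'

/-- Two submodules with the same image under semilinear maps with small kernel: a basis of the
first has a counterpart with the same images in the second. -/
theorem exists_basis_same_image {R R' H H' Hf : Type*} [CommRing R] [CommRing R'] [IsLocalRing R]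
    [AddCommGroup H] [Module R H] [AddCommGroup H'] [Module R H'] [AddCommGroup Hf] [Module R' Hf]
    {σ : R →+* R'} (hσ : RingHom.ker σ ≤ maximalIdeal R) (u : H →ₛₗ[σ] Hf) (u' : H' →ₛₗ[σ] Hf)
    (P : Submodule R H) (P' : Submodule R H') (h1 : ∀ x ∈ P, ∃ x' ∈ P', u' x' = u x)
    (h2 : ∀ z ∈ P', ∃ w ∈ P, u w = u' z)
    (hker : ∀ d ∈ P', u' d = 0 → d ∈ RingHom.ker σ • P') {n : ℕ}
    (b : Module.Basis (Fin n) R P) (b₀ : Module.Basis (Fin n) R P') :
    ∃ b₁ : Module.Basis (Fin n) R P', ∀ j, u' (b₁ j : H') = u (b j : H) := by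
  choose x hx hxr using fun j => h1 _ (b j).2
  let x' : Fin n → P' := fun j => ⟨x j, hx j⟩
  haveI : Module.Finite R P' := Module.Finite.of_basis b₀
  have hspan : Submodule.span R (Set.range x') = ⊤ := by
    refine Diamond.span_eq_top_of_sup_smul x' (RingHom.ker σ) hσ fun z => ?_
    obtain ⟨w, hw, hwz⟩ := h2 _ z.2
    refine ⟨∑ j, b.repr (⟨w, hw⟩ : P) j • x' j, Submodule.sum_mem _ fun j _ =>
      Submodule.smul_mem _ _ (Submodule.subset_span ⟨j, rfl⟩), ?_⟩
    refine mem_smul_top_of_coe_mem _ (hker _ (Subtype.prop _) ?_)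
    have hw' : w = ∑ j, b.repr (⟨w, hw⟩ : P) j • (b j : H) := by
      have e := congrArg Subtype.val (b.sum_repr ⟨w, hw⟩)
      rw [Submodule.coe_sum] at e
      exact e.symm
    rw [Submodule.coe_sub, Submodule.coe_sum, map_sub, map_sum, ← hwz]
    conv_lhs => arg 1; rw [hw', map_sum]
    rw [← Finset.sum_sub_distrib]
    refine Finset.sum_eq_zero fun j _ => ?_
    rw [Submodule.coe_smul, LinearMap.map_smulₛₗ, LinearMap.map_smulₛₗ, hxr, sub_self]
  let T : Module.End R P' := b₀.constr R x'
  have hT : Function.Surjective T := by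
    rw [← LinearMap.range_eq_top, ← hspan]
    exact b₀.constr_range (S := R)
  let Te := LinearEquiv.ofBijective T
    ⟨OrzechProperty.injective_of_surjective_endomorphism T hT, hT⟩
  refine ⟨b₀.map Te, fun j => ?_⟩
  rw [Module.Basis.map_apply]
  show u' ((T (b₀ j) : P') : H') = _
  rw [show T (b₀ j) = x' j from b₀.constr_basis R x' j]
  exact hxr j

/-- A basis of the second part with the same reduction as a basis of the first. -/
theorem exists_basis_red_eq [IsLocalRing A] [IsLocalRing A'] [IsNoetherianRing A'] [NeZero M]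
    (hcov : CoverHyp A M) (hf : Function.Surjective f) {m' : Ideal (HeckePoly A')}
    (hm : m'.comap (MvPolynomial.map f) = m) (he : IsLocalIdem (heckeAct Φ h) m e)
    (he' : IsLocalIdem (heckeAct Φ' h) m e') {ef : Module.End A' (heckeH1 Φ₀ M h₀)}
    (hef : IsLocalIdem (heckeAct Φ₀ h₀) m' ef)
    (b : Module.Basis (Fin D) A (LinearMap.range e))
    (b₀ : Module.Basis (Fin D) A (LinearMap.range e')) :
    ∃ b₁ : Module.Basis (Fin D) A (LinearMap.range e'), ∀ j,
      red f h h₀ hΦ' (b₁ j : heckeH1 Φ' M h) = red f h h₀ hΦ (b j : heckeH1 Φ M h) := by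
  obtain ⟨hsurj, -, hnat⟩ := red_part hΦ hcov hf hm he hef
  obtain ⟨hsurj', hker', hnat'⟩ := red_part hΦ' hcov hf hm he' hef
  have fixed : ∀ z ∈ LinearMap.range e, e z = z := fun z hz => he.eq_of_mem_range ⟨z, hz⟩
  have fixed' : ∀ z ∈ LinearMap.range e', e' z = z := fun z hz => he'.eq_of_mem_range ⟨z, hz⟩
  refine exists_basis_same_image (le_maximalIdeal (RingHom.ker_ne_top f)) _ _ _ _
    (fun z hz => ?_) (fun z hz => ?_) (fun d hd => (hker' d (fixed' d hd)).1) b b₀
  · obtain ⟨w, hw, hwz⟩ := hsurj' _ ((hnat z).symm.trans (congrArg _ (fixed z hz)))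
    exact ⟨w, ⟨w, hw⟩, hwz⟩
  · obtain ⟨w, hw, hwz⟩ := hsurj _ ((hnat' z).symm.trans (congrArg _ (fixed' z hz)))
    exact ⟨w, ⟨w, hw⟩, hwz⟩

/-- Polynomials with the same reduction have congruent matrices in compatible bases. -/
theorem map_matHom_eq_of_red_eq [IsLocalRing A] (he : IsLocalIdem (heckeAct Φ h) m e)
    (he' : IsLocalIdem (heckeAct Φ' h) m e') (b : Module.Basis (Fin D) A (LinearMap.range e))
    (b₁ : Module.Basis (Fin D) A (LinearMap.range e'))
    (hb : ∀ j, red f h h₀ hΦ' (b₁ j : heckeH1 Φ' M h) = red f h h₀ hΦ (b j : heckeH1 Φ M h))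
    (hli : LinearIndependent A' fun i => red f h h₀ hΦ (b i : heckeH1 Φ M h))
    {P P' : HeckePoly A} (hP : MvPolynomial.map f P = MvPolynomial.map f P') (i j : Fin D) :
    f (matHom he b P i j) = f (matHom he' b₁ P' i j) := by
  have h1 := red_heckeAct_basis (h₀ := h₀) hΦ he b P j
  have h2 := red_heckeAct_basis (h₀ := h₀) hΦ' he' b₁ P' j
  rw [hP, ← hb j, h2] at h1
  simp only [hb] at h1
  rw [← sub_eq_zero, ← Finset.sum_sub_distrib] at h1
  simp only [← sub_smul] at h1
  exact (sub_eq_zero.1 (Fintype.linearIndependent_iff.1 hli _ h1 i)).symm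

end Fermat.Agent.RT.Assembly.Models

end
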