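import Fermat.Agent.RT.Assembly.Eigen
import Mathlib.GroupTheory.FiniteAbelian.Duality
import Mathlib.RingTheory.RootsOfUnity.AlgebraicallyClosed

/-!
# The characters separate the group algebra

Over an algebraically closed field of characteristic zero the specialisations of `O[G]` by the
characters of a finite commutative group `G` are jointly injective.
-/

set_option autoImplicit false
set_option linter.style.haveILetI false

noncomputable section

namespace Fermat.Agent.RT.Assembly.Models

variable {O : Type} [CommRing O] {K : Type} [Field K] [CharZero K] [IsAlgClosed K] [Algebra O K]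
  {G : Type} [CommGroup G] [Fintype G]

/-- An element of the group algebra killed by every character is zero. -/
theorem eq_zero_of_specs (hinj : Function.Injective (algebraMap O K)) (x : MonoidAlgebra O G)
    (hx : ∀ ξ : MonoidAlgebra O G →ₐ[O] K, ξ x = 0) : x = 0 := by
  classical
  haveI : NeZero (Monoid.exponent G) := ⟨Monoid.exponent_ne_zero_of_finite⟩
  haveI : HasEnoughRootsOfUnity K (Monoid.exponent G) := inferInstance
  haveI : Finite (G →* Kˣ) :=
    Finite.of_equiv G (CommGroup.monoidHom_mulEquiv_of_hasEnoughRootsOfUnity G K).some.symm.toEquiv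
  letI := Fintype.ofFinite (G →* Kˣ)
  have horth : ∀ g : G, g ≠ 1 → ∑ φ : G →* Kˣ, ((φ g : Kˣ) : K) = 0 := by
    intro g hg
    obtain ⟨φ₀, hφ₀⟩ := CommGroup.exists_apply_ne_one_of_hasEnoughRootsOfUnity G K hg
    have h1 : ((φ₀ g : Kˣ) : K) * ∑ φ : G →* Kˣ, ((φ g : Kˣ) : K) =
        ∑ φ : G →* Kˣ, ((φ g : Kˣ) : K) := by
      rw [Finset.mul_sum]
      exact Fintype.sum_bijective (φ₀ * ·) (Group.mulLeft_bijective φ₀) _ _ fun φ => by simp
    refine (mul_eq_zero.1 (show (((φ₀ g : Kˣ) : K) - 1) * _ = 0 by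
      rw [sub_mul, one_mul, h1, sub_self])).resolve_left fun h => hφ₀ ?_
    exact Units.ext (by simpa using sub_eq_zero.1 h)
  refine MonoidAlgebra.ext (Finsupp.ext fun h => ?_)
  have h0 : ∑ φ : G →* Kˣ, ((φ h⁻¹ : Kˣ) : K) *
      MonoidAlgebra.lift O K G ((Units.coeHom K).comp φ) x = 0 :=
    Finset.sum_eq_zero fun φ _ => by rw [hx, mul_zero]
  rw [Finset.sum_congr rfl fun φ _ => by rw [Eigen.algHom_eq_sum _ x]] at h0
  simp only [Finset.mul_sum, MonoidAlgebra.lift_single, one_smul,
    MonoidHom.comp_apply, Units.coeHom_apply] at h0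
  rw [Finset.sum_comm, Finset.sum_eq_single h (fun g _ hg => ?_) (by simp)] at h0
  · have h1 : ∑ φ : G →* Kˣ, ((φ h⁻¹ : Kˣ) : K) * (algebraMap O K (x.coeff h) * ((φ h : Kˣ) : K))
        = (Fintype.card (G →* Kˣ) : K) * algebraMap O K (x.coeff h) := by
      rw [← nsmul_eq_mul, ← Finset.card_univ, ← Finset.sum_const]
      refine Finset.sum_congr rfl fun φ _ => ?_
      rw [mul_left_comm, ← Units.val_mul, ← map_mul, inv_mul_cancel, map_one, Units.val_one,
        mul_one]
    rw [h1] at h0
    refine hinj ((mul_eq_zero.1 h0).resolve_left ?_ |>.trans (map_zero _).symm)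
    exact Nat.cast_ne_zero.2 Fintype.card_ne_zero
  · have e : ∀ φ : G →* Kˣ, ((φ h⁻¹ : Kˣ) : K) * (algebraMap O K (x.coeff g) * ((φ g : Kˣ) : K))
        = algebraMap O K (x.coeff g) * ((φ (h⁻¹ * g) : Kˣ) : K) := fun φ => by
      rw [map_mul, Units.val_mul]
      ring
    simp only [e]
    rw [← Finset.mul_sum, horth (h⁻¹ * g) (fun e' => hg (inv_mul_eq_one.1 e').symm), mul_zero]

end Fermat.Agent.RT.Assembly.Models

end
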