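import Fermat.Agent.RT.Assembly.Models.Part
import Fermat.Agent.RT.Assembly.Models.CharSep
import Fermat.Agent.RT.Assembly.Points

/-!
# The Hecke model in a basis of the local part

For a twist of `p`-power order and a basis of the part at the residual system, the matrices of the
twisted operators form a model: they are residually the scalars of the system, satisfy the
relations of cusp forms, and their eigenvectors give newform systems of the exact level.
-/

set_option autoImplicit false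
set_option linter.style.haveILetI false

noncomputable section

open IsLocalRing MvPolynomial

namespace Fermat.Agent.RT.Assembly.Models

open Diamond TW

variable {O : Type} [CommRing O] [IsDomain O] [IsDiscreteValuationRing O]
  [IsAdicComplete (maximalIdeal O) O] [Finite (ResidueField O)] [CharZero O]
  {p : ℕ} [Fact p.Prime] {B : Base O p} {r n : ℕ} (Lv : Level B r n)

section Generic

variable {A A' : Type} [CommRing A] [CommRing A'] {N L : ℕ}

theorem twPoly_X (θ : MulChar (ZMod N) A) (ℓ : Nat.Primes) :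
    twPoly θ (X ℓ) = C (Ring.inverse (θ ((ℓ : ℕ) : ZMod N))) * X ℓ :=
  MvPolynomial.eval₂Hom_X' _ _ ℓ

theorem heckeAct_twPoly_X (θ : MulChar (ZMod N) A) (h : N ∣ L) (ℓ : Nat.Primes) :
    heckeAct (neben θ) h (twPoly θ (X ℓ)) = twOp θ h ℓ := by
  rw [twPoly_X, map_mul, heckeAct_C, heckeAct_X, smul_mul_assoc, one_mul]
  rfl

theorem map_twPoly (θ : MulChar (ZMod N) A) (f : A →+* A') (F : MvPolynomial Nat.Primes ℤ) :
    MvPolynomial.map f (twPoly θ F) = twPoly (θ.ringHomComp f) F :=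
  hom_eq_of_vars (φ := (MvPolynomial.map f).comp (twPoly θ)) (ψ := twPoly (θ.ringHomComp f))
    (F := F) fun ℓ _ => by
      rw [RingHom.comp_apply, twPoly_X, twPoly_X]
      exact map_twPoly_X f ℓ rfl

theorem map_neben (θ : MulChar (ZMod N) A) (f : A →+* A') (a : ℤ) (_ : IsUnit (a : ZMod N)) :
    f (neben θ (a : ZMod N)) = neben (θ.ringHomComp f) (a : ZMod N) := by
  rw [MulChar.pow_apply' _ two_ne_zero, MulChar.pow_apply' _ two_ne_zero, map_pow,
    MulChar.ringHomComp_apply]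

theorem heckeAct_map_mul_sub (θ : MulChar (ZMod N) A) (f : A →+* A') (h : N ∣ L)
    (F : MvPolynomial Nat.Primes ℤ) (ℓ : Nat.Primes) (v : A)
    (z : heckeH1 (neben (θ.ringHomComp f)) L h) :
    heckeAct (neben (θ.ringHomComp f)) h
        (MvPolynomial.map f (twPoly θ F * (twPoly θ (X ℓ) - C v))) z =
      heckeAct (neben (θ.ringHomComp f)) h (twPoly (θ.ringHomComp f) F)
        (twOp (θ.ringHomComp f) h ℓ z - f v • z) := by
  rw [map_mul (MvPolynomial.map f), map_sub (MvPolynomial.map f), map_twPoly, map_twPoly, map_C,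
    map_mul (heckeAct (neben (θ.ringHomComp f)) h), map_sub (heckeAct (neben (θ.ringHomComp f)) h),
    heckeAct_twPoly_X, heckeAct_C]
  rfl

theorem twOp_red_mulVec [IsLocalRing A] {D : ℕ} (θ : MulChar (ZMod N) A) (f : A →+* A') (h : N ∣ L)
    {m : Ideal (HeckePoly A)} {e : Module.End A (heckeH1 (neben θ) L h)}
    (he : IsLocalIdem (heckeAct (neben θ) h) m e)
    (b : Module.Basis (Fin D) A (LinearMap.range e)) (ℓ : Nat.Primes) (w : Fin D → A') :
    twOp (θ.ringHomComp f) h ℓ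
        (∑ j, w j • red f h h (map_neben θ f) (b j : heckeH1 (neben θ) L h)) =
      ∑ i, ((matHom he b (twPoly θ (X ℓ))).map f).mulVec w i •
        red f h h (map_neben θ f) (b i : heckeH1 (neben θ) L h) := by
  rw [← heckeAct_twPoly_X, ← map_twPoly, heckeAct_red_mulVec (map_neben θ f) he b]

end Generic

theorem neZero_ppow (i : Fin r) : NeZero (ppow p Lv.e i) :=
  ⟨pow_ne_zero _ (Fact.out : p.Prime).ne_zero⟩

theorem θ_pow_odd {χ' : MulChar (ZMod B.N₀) O} (hχ' : ∀ u : (ZMod B.N₀)ˣ, χ' u ^ p = 1)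
    (u : (ZMod Lv.N)ˣ) : ∃ k : ℕ, Odd k ∧ Lv.θ χ' u ^ k = 1 := by
  have hp : p.Prime := Fact.out
  have hodd : Odd p := hp.odd_of_ne_two B.hp2
  refine ⟨p * ∏ i, p ^ Lv.e i, hodd.mul (Finset.prod_induction _ Odd (fun _ _ => Odd.mul) odd_one
    fun i _ => hodd.pow), ?_⟩
  have hg : ∀ g : TwistGroup p Lv.e, g ^ (p * ∏ i, p ^ Lv.e i) = 1 := fun g => by
    refine Multiplicative.toAdd.injective (funext fun i => ?_)
    rw [toAdd_pow, Pi.smul_apply, nsmul_eq_mul, (ZMod.natCast_eq_zero_iff _ _).2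
      ((Finset.dvd_prod_of_mem _ (Finset.mem_univ i)).mul_left p), zero_mul]
    rfl
  rw [Level.θ, tautTwist_apply, mul_pow, ← map_pow (algebraMap O (TwistRing O p Lv.e)),
    pow_mul (χ' _), hχ', one_pow, map_one,
    ← map_pow (MonoidAlgebra.of O (TwistGroup p Lv.e)), hg, map_one, one_mul]

theorem residue_comp_spec {V : Type} [CommRing V] [IsLocalRing V] [Algebra O V]
    [IsLocalHom (algebraMap O V)] (ξ : Lv.Λ →ₐ[O] V) (c : Lv.Λ) :
    residue V (ξ c) = ResidueField.map (algebraMap O V) (Lv.resΛ c) := by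
  haveI := neZero_ppow Lv
  haveI := charP_residueField B
  haveI : CharP (ResidueField V) p :=
    charP_of_injective_ringHom (ResidueField.map (algebraMap O V)).injective p
  have hle : augIdeal O (ppow p Lv.e) ≤ RingHom.ker ((residue V).comp ξ.toRingHom) := by
    refine Ideal.span_le.2 ?_
    rintro _ ⟨i, rfl⟩
    show residue V (ξ (delta O (N := ppow p Lv.e) i - 1)) = 0
    refine pow_eq_zero_iff (pow_ne_zero (Lv.e i) (Fact.out : p.Prime).ne_zero) |>.1 ?_
    rw [map_sub, map_one, map_sub, map_one, sub_pow_char_pow, ← map_pow, ← map_pow, delta_pow,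
      map_one, map_one, one_pow, sub_self]
  have h : residue V (ξ (c - algebraMap O Lv.Λ (aug O (ppow p Lv.e) c))) = 0 :=
    hle (sub_aug_mem (O := O) (N := ppow p Lv.e) c)
  rw [map_sub, map_sub, sub_eq_zero, AlgHom.commutes, ← ResidueField.map_residue] at h
  exact h

variable {χ' : MulChar (ZMod B.N₀) O} {D : ℕ}
  (b : Module.Basis (Fin D) Lv.Λ (LinearMap.range (eLv Lv χ')))

/-- The matrices of the twisted operators. -/
def modelOp (ℓ : Nat.Primes) : Matrix (Fin D) (Fin D) Lv.Λ :=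
  matHom (eLv_spec Lv χ') b (twPoly (Lv.θ χ') (X ℓ))

theorem matHom_twPoly_sub_C (ℓ : Nat.Primes) (v : Lv.Λ) :
    matHom (eLv_spec Lv χ') b (twPoly (Lv.θ χ') (X ℓ) - C v) =
      modelOp Lv b ℓ - v • (1 : Matrix (Fin D) (Fin D) Lv.Λ) := by
  rw [map_sub, ← algebraMap_eq, AlgHom.commutes, Algebra.algebraMap_eq_smul_one]
  rfl

theorem modelOp_resid (hχ' : ∀ u : (ZMod B.N₀)ˣ, χ' u ^ p = 1) (ℓ : Nat.Primes)
    (hℓ : (ℓ : ℕ) ∉ Lv.S') :
    IsNilpotent ((modelOp Lv b ℓ).map Lv.resΛ -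
      B.a ℓ • (1 : Matrix (Fin D) (Fin D) (ResidueField O))) := by
  set he := eLv_spec Lv χ'
  obtain ⟨v, hv⟩ := resΛ_surjective Lv (B.a ℓ)
  set t : HeckePoly Lv.Λ := twPoly (Lv.θ χ') (X ℓ) - C v with htdef
  have ht : t ∈ mLv Lv := by
    rw [mem_residualIdeal_iff, htdef, twPoly_X, map_sub, map_mul, eval₂Hom_C, eval₂Hom_C,
      eval₂Hom_X', aLv_of_good Lv hℓ, hv, map_inverse_mulChar,
      resΛ_θ_of_isUnit Lv hχ' (isUnit_cast_N Lv hℓ), Ring.inverse_one, one_mul, sub_self]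
  obtain ⟨k, hk⟩ := he.nil t ht
  have h0 : (matHom he b (t ^ k)).map Lv.resΛ = 0 := by
    refine map_matHom_eq_zero (resΛ_neben Lv hχ') he b (h₀ := one_dvd _)
      (linearIndependent_red (resΛ_neben Lv hχ') (coverHyp_level Lv) he (hEis_level Lv χ') b)
      fun j => ?_
    rw [← red_heckeAct]
    have h1 := hk (b j : heckeH1 (neben (Lv.θ χ')) Lv.L Lv.N_dvd_L)
    rw [he.eq_of_mem_range, ← map_pow] at h1
    refine Submodule.smul_induction_on h1 (fun a ha z _ => ?_) fun x y hx hy => ?_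
    · rw [LinearMap.map_smulₛₗ]
      rw [← ker_resΛ Lv, RingHom.mem_ker] at ha
      rw [ha, zero_smul]
    · rw [map_add, hx, hy, add_zero]
  have h2 : (matHom he b t).map Lv.resΛ = (modelOp Lv b ℓ).map Lv.resΛ -
      B.a ℓ • (1 : Matrix (Fin D) (Fin D) (ResidueField O)) := by
    rw [htdef, matHom_twPoly_sub_C, Matrix.map_sub _ (map_sub Lv.resΛ),
      Matrix.map_smul' Lv.resΛ v _ (map_mul Lv.resΛ), Matrix.map_one _ (map_zero _) (map_one _),
      hv]
  refine ⟨k, ?_⟩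
  rw [← h2]
  rw [map_pow] at h0
  exact (map_pow Lv.resΛ.mapMatrix (matHom he b t) k).symm.trans h0

theorem isUnit_modelOp_sub (hχ' : ∀ u : (ZMod B.N₀)ˣ, χ' u ^ p = 1) {ℓ : Nat.Primes}
    (hℓ : (ℓ : ℕ) ∉ Lv.S') (hne : B.a ℓ ≠ ((ℓ : ℕ) : ResidueField O) + 1) :
    IsUnit (matHom (eLv_spec Lv χ') b
      (twPoly (Lv.θ χ') (X ℓ) - C (((ℓ : ℕ) : Lv.Λ) + 1))) := by
  haveI : IsLocalHom Lv.resΛ := IsLocalHom.of_surjective _ (resΛ_surjective Lv)
  rw [Matrix.isUnit_iff_isUnit_det]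
  refine isUnit_of_map_unit Lv.resΛ _ ?_
  rw [RingHom.map_det, ← Matrix.isUnit_iff_isUnit_det, RingHom.mapMatrix_apply,
    matHom_twPoly_sub_C, Matrix.map_sub _ (map_sub Lv.resΛ),
    Matrix.map_smul' Lv.resΛ _ _ (map_mul Lv.resΛ), Matrix.map_one _ (map_zero _) (map_one _),
    map_add, map_natCast, map_one]
  have e : (modelOp Lv b ℓ).map Lv.resΛ - (((ℓ : ℕ) : ResidueField O) + 1) • 1 =
      (B.a ℓ - (((ℓ : ℕ) : ResidueField O) + 1)) • (1 : Matrix (Fin D) (Fin D) (ResidueField O)) +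
        ((modelOp Lv b ℓ).map Lv.resΛ - B.a ℓ • 1) := by
    rw [sub_smul]
    abel
  rw [e]
  refine IsNilpotent.isUnit_add_left_of_commute (modelOp_resid Lv b hχ' ℓ hℓ) ?_ ?_
  · rw [← Algebra.algebraMap_eq_smul_one]
    exact (Ne.isUnit (sub_ne_zero.2 hne)).map _
  · exact ((Commute.one_left _).smul_left _).symm

set_option maxHeartbeats 800000 in
theorem modelOp_relation (hχ' : ∀ u : (ZMod B.N₀)ˣ, χ' u ^ p = 1)
    (F : MvPolynomial Nat.Primes ℤ) (hvars : ∀ ℓ ∈ F.vars, (ℓ : ℕ) ∉ Lv.S')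
    (hF : eval₂Hom (Int.castRingHom _) (formOp (Lv.L * Lv.N) Lv.S') F = 0) :
    matHom (eLv_spec Lv χ') b (twPoly (Lv.θ χ') F) = 0 := by
  classical
  set he := eLv_spec Lv χ'
  obtain ⟨ℓ₀, hℓ₀, h1, hN1, hne⟩ := exists_nonEis Lv
  set t₀ : HeckePoly Lv.Λ := twPoly (Lv.θ χ') (X ℓ₀) - C (((ℓ₀ : ℕ) : Lv.Λ) + 1) with ht₀
  haveI := neZero_ppow Lv
  let K := AlgebraicClosure (FractionRing O)
  have hinj : Function.Injective (algebraMap O K) := by
    rw [IsScalarTower.algebraMap_eq O (FractionRing O) K]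
    exact (algebraMap (FractionRing O) K).injective.comp (IsFractionRing.injective O (FractionRing O))
  haveI : CharZero K := charZero_of_injective_ringHom hinj
  suffices hξ : ∀ ξ : Lv.Λ →ₐ[O] K, (matHom he b (twPoly (Lv.θ χ') F)).map ξ = 0 by
    refine Matrix.ext fun i j => eq_zero_of_specs hinj _ fun ξ => ?_
    exact congrFun (congrFun (hξ ξ) i) j
  intro ξ
  set θK := (Lv.θ χ').ringHomComp ξ.toRingHom
  have hΦ := map_neben (Lv.θ χ') ξ.toRingHom
  have hprod : (matHom he b (twPoly (Lv.θ χ') F * t₀)).map ξ.toRingHom = 0 := by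
    refine map_matHom_eq_zero hΦ he b (h₀ := Lv.N_dvd_L)
      (linearIndependent_red hΦ (coverHyp_level Lv) he (hEis_level Lv χ') b) fun j => ?_
    obtain ⟨a, ha, hrel⟩ := heckeRelation Lv.N_dvd_L (squarefree_L Lv) θK
      (fun u => by
        obtain ⟨k, hk, hk'⟩ := θ_pow_odd Lv hχ' u
        exact ⟨k, hk, by rw [MulChar.ringHomComp_apply, ← map_pow, hk', map_one]⟩)
      Lv.S' (fun q hq => mem_S'_of_dvd_L Lv hq) F hvars hF ℓ₀ hℓ₀ h1
      (red ξ.toRingHom Lv.N_dvd_L Lv.N_dvd_L hΦ (b j : heckeH1 (neben (Lv.θ χ')) Lv.L Lv.N_dvd_L))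
    refine (heckeAct_map_mul_sub (Lv.θ χ') ξ.toRingHom Lv.N_dvd_L F ℓ₀ _ _).trans ?_
    have hv : ξ.toRingHom (((ℓ₀ : ℕ) : Lv.Λ) + 1) = ((ℓ₀ : ℕ) : K) + 1 :=
      (map_add ξ.toRingHom _ _).trans (congrArg₂ (· + ·) (map_natCast _ _) (map_one _))
    have h2 := (smul_eq_zero.1 hrel).resolve_left ha
    rw [← hv] at h2
    exact h2
  have hu : IsUnit ((matHom he b t₀).map ξ.toRingHom) :=
    (isUnit_modelOp_sub Lv b hχ' hℓ₀ hne).map ξ.toRingHom.mapMatrix
  rw [map_mul, Matrix.map_mul] at hprod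
  exact hu.mul_left_eq_zero.1 hprod

theorem modelOp_eigen (hχ' : ∀ u : (ZMod B.N₀)ˣ, χ' u ^ p = 1) {V : Type} [CommRing V]
    [IsDomain V] [IsDiscreteValuationRing V]
    [IsAdicComplete (maximalIdeal V) V] [Finite (ResidueField V)] [CharZero V] [Algebra O V]
    [IsLocalHom (algebraMap O V)] (ξ : Lv.Λ →ₐ[O] V) (c : Nat.Primes → V) (w : Fin D → V)
    (hw : w ≠ 0) (hc : ∀ ℓ : Nat.Primes, (ℓ : ℕ) ∉ Lv.S' →
      ((modelOp Lv b ℓ).map ξ).mulVec w = c ℓ • w) :
    ∃ (L' : ℕ) (_ : NeZero L'),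
      IsExactLevel ((Lv.θ χ').ringHomComp ξ.toRingHom) Lv.S' c Lv.L L' ∧
        IsNewformSystem Lv.S' L' c := by
  classical
  set he := eLv_spec Lv χ'
  set θV := (Lv.θ χ').ringHomComp ξ.toRingHom
  have hΦ := map_neben (Lv.θ χ') ξ.toRingHom
  let y : heckeH1 (neben θV) Lv.L Lv.N_dvd_L := ∑ j, w j •
    red ξ.toRingHom Lv.N_dvd_L Lv.N_dvd_L hΦ (b j : heckeH1 (neben (Lv.θ χ')) Lv.L Lv.N_dvd_L)
  have hli := linearIndependent_red (h₀ := Lv.N_dvd_L) hΦ (coverHyp_level Lv) he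
    (hEis_level Lv χ') b
  obtain ⟨ℓ₀, hℓ₀, h1, -, hne⟩ := exists_nonEis Lv
  refine exists_exactNewform Lv.N_dvd_L (squarefree_L Lv) θV
    (fun u => by
      obtain ⟨k, hk, hk'⟩ := θ_pow_odd Lv hχ' u
      exact ⟨k, hk, by rw [MulChar.ringHomComp_apply, ← map_pow, hk', map_one]⟩)
    Lv.S' (fun q hq => mem_S'_of_dvd_L Lv hq) c ⟨ℓ₀, hℓ₀, h1, fun hceq => hne ?_⟩
    (y := y) (mem_twSystem_iff.2 fun ℓ hℓ => ?_) fun a ha hay => hw ?_
  · -- the eigenvalue has the residual value of the system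
    set M := (modelOp Lv b ℓ₀).map ξ
    have hdet : (M - c ℓ₀ • 1).det = 0 :=
      Matrix.exists_mulVec_eq_zero_iff.1 ⟨w, hw, by
        rw [Matrix.sub_mulVec, Matrix.smul_mulVec, Matrix.one_mulVec, hc ℓ₀ hℓ₀, sub_self]⟩
    set g := ResidueField.map (algebraMap O V) with hgdef
    have hgM : M.map (residue V) = ((modelOp Lv b ℓ₀).map Lv.resΛ).map g := by
      ext i j
      exact residue_comp_spec Lv ξ _
    by_contra hbad
    have hN : IsNilpotent (((modelOp Lv b ℓ₀).map Lv.resΛ - B.a ℓ₀ • 1).map g) :=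
      (modelOp_resid Lv b hχ' ℓ₀ hℓ₀).map g.mapMatrix
    have hu : IsUnit ((g (B.a ℓ₀) - residue V (c ℓ₀)) • (1 : Matrix (Fin D) (Fin D) (ResidueField V))
        + (((modelOp Lv b ℓ₀).map Lv.resΛ - B.a ℓ₀ • 1).map g)) := by
      refine IsNilpotent.isUnit_add_left_of_commute hN ?_ ((Commute.one_left _).smul_left _).symm
      rw [← Algebra.algebraMap_eq_smul_one]
      refine (Ne.isUnit (sub_ne_zero.2 fun h => hbad ?_)).map _
      rw [hceq, map_add, map_natCast, map_one] at h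
      exact g.injective (h.trans (by rw [map_add, map_natCast, map_one]))
    have e : (M - c ℓ₀ • 1).map (residue V) =
        (g (B.a ℓ₀) - residue V (c ℓ₀)) • (1 : Matrix (Fin D) (Fin D) (ResidueField V)) +
          (((modelOp Lv b ℓ₀).map Lv.resΛ - B.a ℓ₀ • 1).map g) := by
      rw [Matrix.map_sub _ (map_sub (residue V)), Matrix.map_sub _ (map_sub g), hgM,
        Matrix.map_smul' (residue V) _ _ (map_mul _), Matrix.map_smul' g _ _ (map_mul _),
        Matrix.map_one _ (map_zero _) (map_one _), Matrix.map_one _ (map_zero _) (map_one _),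
        sub_smul]
      abel
    rw [← e, Matrix.isUnit_iff_isUnit_det, ← RingHom.mapMatrix_apply, ← RingHom.map_det, hdet,
      map_zero] at hu
    exact not_isUnit_zero hu
  · -- the eigen equation
    refine (twOp_red_mulVec (Lv.θ χ') ξ.toRingHom Lv.N_dvd_L he b ℓ w).trans ?_
    refine Eq.trans ?_ (Finset.smul_sum).symm
    exact Finset.sum_congr rfl fun i _ =>
      (congrArg (· • _) (congrFun (hc ℓ hℓ) i)).trans (mul_smul _ _ _)
  · funext i
    have h0 : ∑ j, (a * w j) • red ξ.toRingHom Lv.N_dvd_L Lv.N_dvd_L hΦ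
        (b j : heckeH1 (neben (Lv.θ χ')) Lv.L Lv.N_dvd_L) = 0 := by
      refine Eq.trans ?_ hay
      refine Eq.trans ?_ Finset.smul_sum.symm
      exact Finset.sum_congr rfl fun j _ => mul_smul _ _ _
    exact (mul_eq_zero.1 (Fintype.linearIndependent_iff.1 hli _ h0 i)).resolve_left ha

/-- The model in a basis. -/
def mkModel (hχ' : ∀ u : (ZMod B.N₀)ˣ, χ' u ^ p = 1) : HeckeModel Lv χ' D where
  op := modelOp Lv b
  comm ℓ ℓ' := (Commute.all _ _).map (matHom (eLv_spec Lv χ') b)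
  resid := modelOp_resid Lv b hχ'
  relation F hvars hF C' _ f ι hι hf := by
    refine hι ?_
    rw [map_zero, ← modelOp_relation Lv b hχ' F hvars hF]
    exact hom_eq_of_vars (φ := ι.comp (eval₂Hom (Int.castRingHom C') f))
      (ψ := (matHom (eLv_spec Lv χ') b).toRingHom.comp (twPoly (Lv.θ χ'))) (F := F) fun ℓ hℓ => by
        rw [RingHom.comp_apply, eval₂Hom_X', hf ℓ (hvars ℓ hℓ)]
        rfl
  eigen V _ _ _ _ _ _ _ _ _ ξ c w hw hc := modelOp_eigen Lv b hχ' ξ c w hw hc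

end Fermat.Agent.RT.Assembly.Models

end
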