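import Fermat.Agent.RT.TW.CoeffChange
import Fermat.Agent.RT.Assembly.Defs
import Mathlib.LinearAlgebra.Matrix.ToLin
import Mathlib.Algebra.MvPolynomial.Variables

/-!
# Matrices of the Hecke operators on a local part and their reductions

For a basis of the part at a maximal ideal, `matHom` gives the matrices of the polynomials in the
operators; `red` is the change of coefficients followed by a change of the modulus, and the reduced
matrices compute the action on the reduced classes, which are linearly independent.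
-/

set_option autoImplicit false

noncomputable section

namespace Fermat.Agent.RT.Assembly.Models

open TW MvPolynomial

variable {A A' : Type} [CommRing A] [CommRing A'] {N N₀ M : ℕ} {Φ : MulChar (ZMod N) A}
  {Φ₀ : MulChar (ZMod N₀) A'}

/-- Change of the modulus after change of coefficients. -/
abbrev chg (f : A →+* A') (h : N ∣ M) (h₀ : N₀ ∣ M)
    (hΦ : ∀ a : ℤ, IsUnit (a : ZMod N) → f (Φ a) = Φ₀ a) :
    heckeH1 (Φ.ringHomComp f) M h ≃ₗ[A'] heckeH1 Φ₀ M h₀ :=
  changeModulus h₀ h hΦ

/-- Change of coefficients followed by change of the modulus. -/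
def red (f : A →+* A') (h : N ∣ M) (h₀ : N₀ ∣ M)
    (hΦ : ∀ a : ℤ, IsUnit (a : ZMod N) → f (Φ a) = Φ₀ a) :
    heckeH1 Φ M h →ₛₗ[f] heckeH1 Φ₀ M h₀ :=
  (chg f h h₀ hΦ).toLinearMap.comp
    (heckeBaseChange Φ f h)

variable {f : A →+* A'} {h : N ∣ M} {h₀ : N₀ ∣ M}
  (hΦ : ∀ a : ℤ, IsUnit (a : ZMod N) → f (Φ a) = Φ₀ a)

theorem red_heckeAct (P : HeckePoly A) (y : heckeH1 Φ M h) :
    red f h h₀ hΦ (heckeAct Φ h P y) =
      heckeAct Φ₀ h₀ (MvPolynomial.map f P) (red f h h₀ hΦ y) := by
  show chg f h h₀ hΦ (heckeBaseChange Φ f h (heckeAct Φ h P y)) = _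
  rw [heckeBaseChange_heckeAct]
  exact changeModulus_heckeAct h₀ h hΦ _ _

theorem red_surjective [NeZero M] (hcov : CoverHyp A M) (hf : Function.Surjective f) :
    Function.Surjective (red f h h₀ hΦ) := fun y => by
  obtain ⟨x, hx⟩ := heckeBaseChange_surjective f h hcov hf ((chg f h h₀ hΦ).symm y)
  refine ⟨x, ?_⟩
  show chg f h h₀ hΦ (heckeBaseChange Φ f h x) = y
  rw [hx, LinearEquiv.apply_symm_apply]

theorem mem_ker_smul_of_red_eq_zero [NeZero M] (hcov : CoverHyp A M) (hf : Function.Surjective f)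
    {y : heckeH1 Φ M h} (hy : red f h h₀ hΦ y = 0) :
    y ∈ RingHom.ker f • (⊤ : Submodule A (heckeH1 Φ M h)) :=
  mem_ker_smul_of_heckeBaseChange_eq_zero f h hcov hf
    ((LinearEquiv.map_eq_zero_iff (chg f h h₀ hΦ)).1 hy)

/-- The reduction maps the local part onto the local part of the target. -/
theorem red_part [IsLocalRing A] [IsLocalRing A'] [IsNoetherianRing A'] [NeZero M]
    (hcov : CoverHyp A M) (hf : Function.Surjective f) {m : Ideal (HeckePoly A)}
    {m' : Ideal (HeckePoly A')} (hm : m'.comap (MvPolynomial.map f) = m)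
    {e : Module.End A (heckeH1 Φ M h)} (he : IsLocalIdem (heckeAct Φ h) m e)
    {e' : Module.End A' (heckeH1 Φ₀ M h₀)} (he' : IsLocalIdem (heckeAct Φ₀ h₀) m' e') :
    (∀ y, e' y = y → ∃ x, e x = x ∧ red f h h₀ hΦ x = y) ∧
      (∀ x, e x = x → (red f h h₀ hΦ x = 0 ↔ x ∈ RingHom.ker f • LinearMap.range e)) ∧
      ∀ x, red f h h₀ hΦ (e x) = e' (red f h h₀ hΦ x) := by
  have : IsLocalHom f := IsLocalHom.of_surjective f hf
  have := finite_heckeH1 (Φ := Φ₀) h₀ (hcov.map f)
  have hm' : ∀ P, MvPolynomial.map f P ∈ m' ↔ P ∈ m := fun P => by rw [← hm]; rfl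
  refine ⟨?_, ?_, fun x => he.natural he' (red f h h₀ hΦ) (MvPolynomial.map f)
    (MvPolynomial.map_surjective f hf) (red_heckeAct hΦ) hm' x⟩
  all_goals
    have key := he.baseChange he' (red f h h₀ hΦ) (MvPolynomial.map f)
      (MvPolynomial.map_surjective f hf) (red_heckeAct hΦ) hm'
      (red_surjective hΦ hcov hf) (fun x hx => mem_ker_smul_of_red_eq_zero hΦ hcov hf hx)
  · exact key.1
  · exact key.2

section Basis

variable {m : Ideal (HeckePoly A)} {e : Module.End A (heckeH1 Φ M h)} {D : ℕ}

theorem linearIndependent_red [IsLocalRing A] [NeZero M] (hcov : CoverHyp A M)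
    (he : IsLocalIdem (heckeAct Φ h) m e)
    (hEis : ∃ ℓ : Nat.Primes, (X ℓ - C (eisensteinValue Φ M ℓ) : HeckePoly A) ∉ m)
    (b : Module.Basis (Fin D) A (LinearMap.range e)) :
    LinearIndependent A' fun i => red f h h₀ hΦ (b i : heckeH1 Φ M h) :=
  (linearIndependent_heckeBaseChange h hcov f he hEis b).map'
    (chg f h h₀ hΦ).toLinearMap (chg f h h₀ hΦ).ker

variable [IsLocalRing A]

/-- The action of the polynomials on the part. -/
def partEnd (he : IsLocalIdem (heckeAct Φ h) m e) :
    HeckePoly A →ₐ[A] Module.End A (LinearMap.range e) where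
  toFun P := LinearMap.restrict (heckeAct Φ h P) fun x ⟨y, hy⟩ =>
    ⟨heckeAct Φ h P y, by rw [he.comm_apply, hy]⟩
  map_one' := LinearMap.ext fun x => Subtype.ext
    (by simp only [LinearMap.restrict_apply, map_one]; rfl)
  map_mul' P Q := LinearMap.ext fun x => Subtype.ext
    (by simp only [LinearMap.restrict_apply, map_mul]; rfl)
  map_zero' := LinearMap.ext fun x => Subtype.ext
    (by simp only [LinearMap.restrict_apply, map_zero]; rfl)
  map_add' P Q := LinearMap.ext fun x => Subtype.ext
    (by simp only [LinearMap.restrict_apply, map_add]; rfl)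
  commutes' a := LinearMap.ext fun x => Subtype.ext
    (by simp only [LinearMap.restrict_apply, AlgHom.commutes]; rfl)

/-- The matrices of the polynomials in a basis of the part. -/
def matHom (he : IsLocalIdem (heckeAct Φ h) m e) (b : Module.Basis (Fin D) A (LinearMap.range e)) :
    HeckePoly A →ₐ[A] Matrix (Fin D) (Fin D) A :=
  (LinearMap.toMatrixAlgEquiv b).toAlgHom.comp (partEnd he)

variable (he : IsLocalIdem (heckeAct Φ h) m e) (b : Module.Basis (Fin D) A (LinearMap.range e))

theorem heckeAct_basis (P : HeckePoly A) (j : Fin D) :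
    heckeAct Φ h P (b j : heckeH1 Φ M h) = ∑ i, matHom he b P i j • (b i : heckeH1 Φ M h) := by
  have e1 : partEnd he P (b j) = ∑ i, matHom he b P i j • b i := by
    conv_lhs => rw [← b.sum_repr (partEnd he P (b j))]
    exact Finset.sum_congr rfl fun i _ => by
      rw [matHom]
      simp [LinearMap.toMatrixAlgEquiv_apply]
  have := congrArg Subtype.val e1
  rw [Submodule.coe_sum] at this
  exact this

theorem red_heckeAct_basis (P : HeckePoly A) (j : Fin D) :
    heckeAct Φ₀ h₀ (MvPolynomial.map f P) (red f h h₀ hΦ (b j : heckeH1 Φ M h)) =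
      ∑ i, f (matHom he b P i j) • red f h h₀ hΦ (b i : heckeH1 Φ M h) := by
  rw [← red_heckeAct, heckeAct_basis he b, map_sum]
  exact Finset.sum_congr rfl fun i _ => LinearMap.map_smulₛₗ _ _ _

/-- A polynomial killing the reduced basis has a vanishing reduced matrix. -/
theorem map_matHom_eq_zero (hli : LinearIndependent A' fun i => red f h h₀ hΦ (b i : heckeH1 Φ M h))
    {P : HeckePoly A}
    (hP : ∀ j, heckeAct Φ₀ h₀ (MvPolynomial.map f P) (red f h h₀ hΦ (b j : heckeH1 Φ M h)) = 0) :
    (matHom he b P).map f = 0 := by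
  refine Matrix.ext fun i j => ?_
  have h0 := hP j
  rw [red_heckeAct_basis hΦ he b] at h0
  exact Fintype.linearIndependent_iff.1 hli _ h0 i

/-- A combination of the reduced basis is moved by the reduced matrix. -/
theorem heckeAct_red_mulVec (P : HeckePoly A) (w : Fin D → A') :
    heckeAct Φ₀ h₀ (MvPolynomial.map f P) (∑ j, w j • red f h h₀ hΦ (b j : heckeH1 Φ M h)) =
      ∑ i, ((matHom he b P).map f).mulVec w i • red f h h₀ hΦ (b i : heckeH1 Φ M h) := by
  rw [map_sum]
  simp only [map_smul, red_heckeAct_basis hΦ he b, Finset.smul_sum]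
  rw [Finset.sum_comm]
  refine Finset.sum_congr rfl fun i _ => ?_
  simp only [Matrix.mulVec, dotProduct, Matrix.map_apply, Finset.sum_smul, smul_smul]
  exact Finset.sum_congr rfl fun j _ => by rw [mul_comm]

end Basis

/-- Two homomorphisms agreeing on the variables of a polynomial agree on it. -/
theorem hom_eq_of_vars {σ : Type} {R : Type*} [Ring R] {φ ψ : MvPolynomial σ ℤ →+* R}
    {F : MvPolynomial σ ℤ} (hv : ∀ i ∈ F.vars, φ (X i) = ψ (X i)) : φ F = ψ F := by
  obtain ⟨q, hq⟩ := exists_rename_eq_of_vars_subset_range F (Subtype.val : {i // i ∈ F.vars} → σ)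
    Subtype.val_injective (fun i hi => ⟨⟨i, hi⟩, rfl⟩)
  have key : φ.comp (rename (Subtype.val : {i // i ∈ F.vars} → σ)).toRingHom =
      ψ.comp (rename (Subtype.val : {i // i ∈ F.vars} → σ)).toRingHom :=
    ringHom_ext (fun r => by rw [eq_intCast, map_intCast, map_intCast]) fun i => by simpa using hv i.1 i.2
  have := RingHom.congr_fun key q
  simpa [hq] using this

/-- Inverses of values of a character commute with ring homomorphisms. -/
theorem map_inverse_mulChar (θ : MulChar (ZMod N) A) (f : A →+* A') (x : ZMod N) :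
    f (Ring.inverse (θ x)) = Ring.inverse (f (θ x)) := by
  by_cases hx : IsUnit x
  · obtain ⟨u, hu⟩ := hx.map θ
    rw [← hu, Ring.inverse_unit]
    exact (Ring.inverse_unit (Units.map f.toMonoidHom u)).symm
  · rw [MulChar.map_nonunit _ hx, Ring.inverse_zero, map_zero, Ring.inverse_zero]

/-- Two twists agreeing after the change of coefficients give the same reduced operators. -/
theorem map_twPoly_X {θ : MulChar (ZMod N) A} {θ' : MulChar (ZMod N) A'} (f : A →+* A')
    (ℓ : Nat.Primes) (hθ : f (θ ((ℓ : ℕ) : ZMod N)) = θ' ((ℓ : ℕ) : ZMod N)) :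
    MvPolynomial.map f (C (Ring.inverse (θ ((ℓ : ℕ) : ZMod N))) * X ℓ) =
      (C (Ring.inverse (θ' ((ℓ : ℕ) : ZMod N))) * X ℓ : HeckePoly A') := by
  rw [map_mul, map_C, map_X, map_inverse_mulChar, hθ]

end Fermat.Agent.RT.Assembly.Models

end
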