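import Fermat.Agent.RT.Assembly.Context
import Fermat.Prelude.Thm_IsLocalRing_isAdicComplete_of_module_finite

/-!
# Elementary facts on a Taylor–Wiles level

The group ring is a complete Noetherian local ring, the coefficient rings have covers, the primes
of the level are excluded, the twists are residually trivial.
-/

set_option autoImplicit false
set_option linter.style.haveILetI false

noncomputable section

open IsLocalRing

namespace Fermat.Agent.RT.Assembly.Models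

open Diamond TW

variable {O : Type} [CommRing O] [IsDomain O] [IsDiscreteValuationRing O]
  [IsAdicComplete (maximalIdeal O) O] [Finite (ResidueField O)] [CharZero O]
  {p : ℕ} [Fact p.Prime]

section Base

variable (B : Base O p)
include B

theorem charP_residueField : CharP (ResidueField O) p :=
  (CharP.charP_iff_prime_eq_zero (Fact.out : p.Prime)).2
    (by rw [← map_natCast (residue O), residue_eq_zero_iff]; exact B.hpO)

theorem isUnit_two : IsUnit (2 : O) := by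
  haveI := charP_residueField B
  refine (residue_ne_zero_iff_isUnit _).1 ?_
  rw [map_ofNat]
  intro h
  have h2 : ((2 : ℕ) : ResidueField O) = 0 := by exact_mod_cast h
  rw [CharP.cast_eq_zero_iff (ResidueField O) p] at h2
  exact B.hp2 ((Nat.prime_dvd_prime_iff_eq (Fact.out : p.Prime) Nat.prime_two).1 h2)

theorem coverHyp_base : CoverHyp O (B.M₀ * B.r₀) :=
  B.cover.imp_right fun ⟨q, hq, hqr, hq'⟩ => ⟨isUnit_two B, Or.inr ⟨q, hq, hqr.mul_left _, hq'⟩⟩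

theorem base_ne_zero : B.M₀ * B.r₀ ≠ 0 := B.squarefree.ne_zero

theorem residue_twist_eq_one {χ' : MulChar (ZMod B.N₀) O}
    (hχ' : ∀ u : (ZMod B.N₀)ˣ, χ' u ^ p = 1) (u : (ZMod B.N₀)ˣ) :
    residue O (χ' u) = 1 := by
  haveI := charP_residueField B
  have h : (residue O (χ' u) - 1) ^ p = 0 := by
    rw [sub_pow_char, ← map_pow, hχ', map_one, one_pow, sub_self]
  exact sub_eq_zero.1 ((pow_eq_zero_iff (Fact.out : p.Prime).ne_zero).1 h)

theorem one_pow_twist (u : (ZMod B.N₀)ˣ) : (1 : MulChar (ZMod B.N₀) O) u ^ p = 1 := by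
  rw [MulChar.one_apply u.isUnit, one_pow]

end Base

variable {B : Base O p} {r n : ℕ} (Lv : Level B r n)

instance finiteΛ : Module.Finite O Lv.Λ :=
  Module.Finite.of_basis (MonoidAlgebra.basis (Grp (ppow p Lv.e)) O)

instance isLocalRingΛ : IsLocalRing Lv.Λ := isLocalRing_alg (O := O) (e := Lv.e) B.hpO

instance isNoetherianRingΛ : IsNoetherianRing Lv.Λ := IsNoetherianRing.of_finite O Lv.Λ

theorem aug_algebraMap (o : O) : aug O (ppow p Lv.e) (algebraMap O Lv.Λ o) = o :=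
  (aug O (ppow p Lv.e)).commutes o

instance isLocalHomΛ : IsLocalHom (algebraMap O Lv.Λ) :=
  ⟨fun o ho => aug_algebraMap Lv o ▸ ho.map (aug O (ppow p Lv.e))⟩

instance isAdicCompleteΛ : IsAdicComplete (maximalIdeal Lv.Λ) Lv.Λ :=
  IsLocalRing.isAdicComplete_of_module_finite (𝒪 := O)

theorem resΛ_algebraMap (o : O) : Lv.resΛ (algebraMap O Lv.Λ o) = residue O o := by
  show residue O (aug O (ppow p Lv.e) (algebraMap O Lv.Λ o)) = _
  rw [aug_algebraMap]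

theorem resΛ_surjective : Function.Surjective Lv.resΛ := fun x => by
  obtain ⟨o, rfl⟩ := residue_surjective x
  exact ⟨algebraMap O _ o, resΛ_algebraMap Lv o⟩

theorem ker_resΛ : RingHom.ker Lv.resΛ = maximalIdeal Lv.Λ :=
  eq_maximalIdeal (RingHom.ker_isMaximal_of_surjective _ (resΛ_surjective Lv))

theorem coverHyp_level : CoverHyp Lv.Λ Lv.L :=
  ((coverHyp_base B).map (algebraMap O Lv.Λ)).mono (dvd_mul_right _ _)

theorem mem_S'_of_dvd_L {q : ℕ} (hq : q.Prime) (hd : q ∣ Lv.L) : q ∈ Lv.S' := by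
  rcases hq.dvd_mul.1 hd with h | h
  · exact Finset.mem_union_left _ (B.level_mem q hq h)
  · obtain ⟨i, -, hi⟩ := (Prime.dvd_finsetProd_iff hq.prime _).1 h
    rw [(Nat.prime_dvd_prime_iff_eq hq (Lv.qv i).2).1 hi]
    exact Finset.mem_union_right _ (Finset.mem_image_of_mem _ (Finset.mem_univ i))

theorem not_dvd_L {ℓ : Nat.Primes} (hℓ : (ℓ : ℕ) ∉ Lv.S') : ¬ (ℓ : ℕ) ∣ Lv.L :=
  fun hd => hℓ (mem_S'_of_dvd_L Lv ℓ.2 hd)

theorem not_dvd_N {ℓ : Nat.Primes} (hℓ : (ℓ : ℕ) ∉ Lv.S') : ¬ (ℓ : ℕ) ∣ Lv.N :=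
  fun hd => not_dvd_L Lv hℓ (hd.trans Lv.N_dvd_L)

theorem isUnit_cast_N {ℓ : Nat.Primes} (hℓ : (ℓ : ℕ) ∉ Lv.S') :
    IsUnit ((ℓ : ℕ) : ZMod Lv.N) :=
  (ZMod.isUnit_iff_coprime _ _).2 (ℓ.2.coprime_iff_not_dvd.2 (not_dvd_N Lv hℓ))

theorem qv_ne_of_good {ℓ : Nat.Primes} (hℓ : (ℓ : ℕ) ∉ Lv.S') (i : Fin r) : Lv.qv i ≠ ℓ :=
  fun h => hℓ (h ▸ Finset.mem_union_right _ (Finset.mem_image_of_mem _ (Finset.mem_univ i)))

theorem qv_not_dvd (i : Fin r) : ¬ (Lv.qv i : ℕ) ∣ B.M₀ * B.r₀ :=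
  fun hd => Lv.not_mem i (B.level_mem _ (Lv.qv i).2 hd)

theorem qv_cast_eq_one (i : Fin r) : ((Lv.qv i : ℕ) : ResidueField O) = 1 := by
  haveI := charP_residueField B
  have h : ((((Lv.qv i : ℕ) - 1 : ℕ)) : ResidueField O) = 0 :=
    (CharP.cast_eq_zero_iff (ResidueField O) p _).2
      ((dvd_pow_self p (Lv.pos_e i).ne').trans (Lv.dvd_sub i))
  rwa [Nat.cast_sub (Lv.qv i).2.one_le, Nat.cast_one, sub_eq_zero] at h

theorem squarefree_L : Squarefree Lv.L := by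
  refine Nat.squarefree_mul_iff.2 ⟨Nat.Coprime.prod_right fun i _ => ?_, B.squarefree, ?_⟩
  · exact ((Lv.qv i).2.coprime_iff_not_dvd.2 (qv_not_dvd Lv i)).symm
  · refine Finset.squarefree_prod_of_pairwise_isCoprime (fun i _ j _ hij => ?_)
      fun i _ => (Lv.qv i).2.prime.squarefree
    exact Nat.coprime_iff_isRelPrime.1 ((Nat.coprime_primes (Lv.qv i).2 (Lv.qv j).2).2
      fun h => hij (Lv.inj (Subtype.ext h)))

open Classical in
/-- The residual system at the level. -/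
def aLv : Nat.Primes → ResidueField O := fun ℓ =>
  if h : ∃ i, Lv.qv i = ℓ then Lv.α h.choose else B.a ℓ

theorem aLv_of_forall {ℓ : Nat.Primes} (hℓ : ∀ i, Lv.qv i ≠ ℓ) : aLv Lv ℓ = B.a ℓ :=
  dif_neg (not_exists.2 hℓ)

theorem aLv_of_good {ℓ : Nat.Primes} (hℓ : (ℓ : ℕ) ∉ Lv.S') : aLv Lv ℓ = B.a ℓ :=
  aLv_of_forall Lv (qv_ne_of_good Lv hℓ)

theorem aLv_qv (i : Fin r) : aLv Lv (Lv.qv i) = Lv.α i := by
  have h : ∃ j, Lv.qv j = Lv.qv i := ⟨i, rfl⟩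
  rw [aLv, dif_pos h, Lv.inj h.choose_spec]

theorem resΛ_θ {χ' : MulChar (ZMod B.N₀) O} (hχ' : ∀ u : (ZMod B.N₀)ˣ, χ' u ^ p = 1)
    (u : (ZMod Lv.N)ˣ) : Lv.resΛ (Lv.θ χ' u) = 1 := by
  rw [Level.θ, tautTwist_apply]
  show residue O (aug O (ppow p Lv.e) _) = 1
  rw [map_mul, aug_algebraMap, map_mul, residue_twist_eq_one B hχ']
  simp [aug]

theorem resΛ_θ_of_isUnit {χ' : MulChar (ZMod B.N₀) O} (hχ' : ∀ u : (ZMod B.N₀)ˣ, χ' u ^ p = 1)
    {x : ZMod Lv.N} (hx : IsUnit x) : Lv.resΛ (Lv.θ χ' x) = 1 := by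
  obtain ⟨u, rfl⟩ := hx
  exact resΛ_θ Lv hχ' u

theorem resΛ_neben {χ' : MulChar (ZMod B.N₀) O} (hχ' : ∀ u : (ZMod B.N₀)ˣ, χ' u ^ p = 1)
    (a : ℤ) (ha : IsUnit (a : ZMod Lv.N)) :
    Lv.resΛ (neben (Lv.θ χ') (a : ZMod Lv.N)) =
      (1 : MulChar (ZMod 1) (ResidueField O)) (a : ZMod 1) := by
  rw [MulChar.pow_apply' _ two_ne_zero, map_pow, resΛ_θ_of_isUnit Lv hχ' ha, one_pow,
    MulChar.one_apply (isUnit_of_subsingleton _)]

/-- A good prime at which the system is not Eisenstein. -/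
theorem exists_nonEis : ∃ ℓ : Nat.Primes, (ℓ : ℕ) ∉ Lv.S' ∧
    ((ℓ : ℕ) : ZMod (Lv.L * Lv.N)) = 1 ∧ ((ℓ : ℕ) : ZMod Lv.N) = 1 ∧
    B.a ℓ ≠ ((ℓ : ℕ) : ResidueField O) + 1 := by
  obtain ⟨ℓ, hℓ, h1, hne⟩ := B.nonEis (Lv.L * Lv.N) (mul_ne_zero Lv.L_ne_zero Lv.N_ne_zero) Lv.S'
  refine ⟨ℓ, hℓ, h1, ?_, hne⟩
  have := congrArg (ZMod.castHom (dvd_mul_left Lv.N Lv.L) (ZMod Lv.N)) h1
  rwa [map_natCast, map_one] at this

end Fermat.Agent.RT.Assembly.Models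

end
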