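import Fermat.Agent.RT.Assembly.Models.Red
import Fermat.Agent.RT.Assembly.Models.Level
import Fermat.Agent.RT.TW.AddPrimes
import Mathlib.LinearAlgebra.Dimension.Free

/-!
# The local part of the twisted cohomology of a level

The part at the residual system is free over the group ring, of the rank of the part at the base
level over the residue field.
-/

set_option autoImplicit false
set_option linter.style.haveILetI false

noncomputable section

open IsLocalRing MvPolynomial

namespace Fermat.Agent.RT.Assembly.Models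

open TW

variable {O : Type} [CommRing O] [IsDomain O] [IsDiscreteValuationRing O]
  [IsAdicComplete (maximalIdeal O) O] [Finite (ResidueField O)] [CharZero O]
  {p : ℕ} [Fact p.Prime]

section Base

variable (B : Base O p)

instance neZero_base : NeZero (B.M₀ * B.r₀) := ⟨base_ne_zero B⟩

/-- The trivial character of the residue field. -/
abbrev triv (O : Type) [CommRing O] [IsLocalRing O] : MulChar (ZMod 1) (ResidueField O) := 1

theorem exists_eBase : ∃ e, IsLocalIdem (heckeAct (triv O) (one_dvd (B.M₀ * B.r₀)))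
    (residualIdeal (RingHom.id (ResidueField O)) B.a) e := by
  haveI := finite_heckeH1 (Φ := triv O) (one_dvd (B.M₀ * B.r₀))
    ((coverHyp_base B).map (residue O))
  haveI := residualIdeal_isMaximal (RingHom.id (ResidueField O)) Function.surjective_id B.a
  exact exists_isLocalIdem _ _

/-- The idempotent of the residual system at the base level. -/
def eBase : Module.End (ResidueField O) (heckeH1 (triv O) (B.M₀ * B.r₀) (one_dvd _)) :=
  (exists_eBase B).choose

theorem eBase_spec : IsLocalIdem (heckeAct (triv O) (one_dvd (B.M₀ * B.r₀)))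
    (residualIdeal (RingHom.id (ResidueField O)) B.a) (eBase B) :=
  (exists_eBase B).choose_spec

/-- The common rank. -/
def baseRank : ℕ := Module.finrank (ResidueField O) (LinearMap.range (eBase B))

theorem baseRank_pos : 0 < baseRank B := by
  obtain ⟨y, hy0, hy⟩ := B.occurs
  have he := eBase_spec B
  haveI := finite_heckeH1 (Φ := triv O) (one_dvd (B.M₀ * B.r₀))
    ((coverHyp_base B).map (residue O))
  have hact : ∀ P, heckeAct (triv O) (one_dvd (B.M₀ * B.r₀)) P y = eval B.a P • y := fun P => by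
    induction P using MvPolynomial.induction_on with
    | C v => rw [heckeAct_C, eval_C]; rfl
    | add P Q hP hQ => rw [map_add, LinearMap.add_apply, hP, hQ, map_add, add_smul]
    | mul_X P ℓ hP =>
      rw [map_mul, Module.End.mul_apply, heckeAct_X, hy, map_smul, hP, smul_smul, map_mul, eval_X]
      exact congrArg (· • y) (mul_comm _ _)
  obtain ⟨s, hs, hid⟩ := he.compl
  obtain ⟨q, hq⟩ := he.mem
  have hs0 : eval B.a s = 0 := hs
  have h : heckeAct (triv O) (one_dvd (B.M₀ * B.r₀)) s (y - eval B.a q • y) =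
      y - eval B.a q • y := by
    have h1 := LinearMap.congr_fun hid y
    rwa [Module.End.mul_apply, LinearMap.sub_apply, Module.End.one_apply, ← hq, hact q] at h1
  rw [map_sub, map_smul, hact s, hs0, zero_smul, smul_zero, sub_zero] at h
  have hey : eBase B y = y := by
    rw [← hq, hact q]
    exact (sub_eq_zero.1 h.symm).symm
  refine Module.finrank_pos_iff_exists_ne_zero.2 ⟨⟨y, y, hey⟩, fun h0 => hy0 ?_⟩
  exact congrArg Subtype.val h0

end Base

variable {B : Base O p} {r n : ℕ} (Lv : Level B r n) {χ' : MulChar (ZMod B.N₀) O}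

/-- The maximal ideal of the residual system at the level. -/
abbrev mLv : Ideal (HeckePoly Lv.Λ) := residualIdeal Lv.resΛ (aLv Lv)

theorem exists_eLv (χ' : MulChar (ZMod B.N₀) O) :
    ∃ e, IsLocalIdem (heckeAct (neben (Lv.θ χ')) Lv.N_dvd_L) (mLv Lv) e := by
  haveI := finite_heckeH1 (Φ := neben (Lv.θ χ')) Lv.N_dvd_L (coverHyp_level Lv)
  haveI := residualIdeal_isMaximal Lv.resΛ (resΛ_surjective Lv) (aLv Lv)
  exact exists_isLocalIdem _ _

/-- The idempotent of the part at the residual system. -/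
def eLv (χ' : MulChar (ZMod B.N₀) O) :
    Module.End Lv.Λ (heckeH1 (neben (Lv.θ χ')) Lv.L Lv.N_dvd_L) :=
  (exists_eLv Lv χ').choose

theorem eLv_spec (χ' : MulChar (ZMod B.N₀) O) :
    IsLocalIdem (heckeAct (neben (Lv.θ χ')) Lv.N_dvd_L) (mLv Lv) (eLv Lv χ') :=
  (exists_eLv Lv χ').choose_spec

theorem hEis_level (χ' : MulChar (ZMod B.N₀) O) : ∃ ℓ : Nat.Primes,
    (X ℓ - C (eisensteinValue (neben (Lv.θ χ')) Lv.L ℓ) : HeckePoly Lv.Λ) ∉ mLv Lv := by
  obtain ⟨ℓ, hℓ, -, h1, hne⟩ := exists_nonEis Lv
  refine ⟨ℓ, fun h => hne ?_⟩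
  rw [X_sub_C_mem_residualIdeal_iff, aLv_of_good Lv hℓ] at h
  rw [h, eisensteinValue, if_neg (not_dvd_L Lv hℓ), map_add, map_natCast, h1, map_one, map_one]

variable (χ') in
theorem free_part : Module.Free Lv.Λ (LinearMap.range (eLv Lv χ')) ∧
    Module.Finite Lv.Λ (LinearMap.range (eLv Lv χ')) :=
  free_heckePart Lv.N_dvd_L (coverHyp_level Lv) (eLv_spec Lv χ') (hEis_level Lv χ')

/-- The reduction to the residue field. -/
abbrev redRes (hχ' : ∀ u : (ZMod B.N₀)ˣ, χ' u ^ p = 1) :
    heckeH1 (neben (Lv.θ χ')) Lv.L Lv.N_dvd_L →ₛₗ[Lv.resΛ]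
      heckeH1 (triv O) Lv.L (one_dvd _) :=
  red Lv.resΛ Lv.N_dvd_L (one_dvd _) (resΛ_neben Lv hχ')

theorem finrank_part (hχ' : ∀ u : (ZMod B.N₀)ˣ, χ' u ^ p = 1) :
    Module.finrank Lv.Λ (LinearMap.range (eLv Lv χ')) = baseRank B := by
  obtain ⟨hfree, hfin⟩ := free_part Lv χ'
  set he := eLv_spec Lv χ'
  let b := Module.finBasis Lv.Λ (LinearMap.range (eLv Lv χ'))
  -- the residual part at the level
  have hcovk : CoverHyp (ResidueField O) (B.M₀ * B.r₀) := (coverHyp_base B).map (residue O)
  have hcovL : CoverHyp (ResidueField O) Lv.L := hcovk.mono (dvd_mul_right _ _)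
  haveI := finite_heckeH1 (Φ := triv O) (one_dvd Lv.L) hcovL
  haveI := residualIdeal_isMaximal (RingHom.id (ResidueField O)) Function.surjective_id (aLv Lv)
  obtain ⟨eL, heL⟩ := exists_isLocalIdem (heckeAct (triv O) (one_dvd Lv.L))
    (residualIdeal (RingHom.id (ResidueField O)) (aLv Lv))
  have hm : (residualIdeal (RingHom.id (ResidueField O)) (aLv Lv)).comap
      (MvPolynomial.map Lv.resΛ) = mLv Lv := by
    rw [residualIdeal_comap, RingHom.id_comp]
  obtain ⟨hsurj, -, hnat⟩ :=
    red_part (resΛ_neben Lv hχ') (coverHyp_level Lv) (resΛ_surjective Lv) hm he heL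
  let v : Fin _ → heckeH1 (triv O) Lv.L (one_dvd _) := fun i =>
    redRes Lv hχ' (b i : heckeH1 (neben (Lv.θ χ')) Lv.L Lv.N_dvd_L)
  have hli : LinearIndependent (ResidueField O) v :=
    linearIndependent_red (resΛ_neben Lv hχ') (coverHyp_level Lv) he (hEis_level Lv χ') b
  have hspan : Submodule.span (ResidueField O) (Set.range v) = LinearMap.range eL := by
    refine le_antisymm (Submodule.span_le.2 ?_) fun y hy => ?_
    · rintro _ ⟨i, rfl⟩
      exact ⟨v i, ((hnat _).symm.trans (congrArg (redRes Lv hχ') (he.eq_of_mem_range (b i))))⟩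
    · obtain ⟨x, hx, rfl⟩ := hsurj y (heL.eq_of_mem_range ⟨y, hy⟩)
      have hx' : x = ∑ i, b.repr ⟨x, x, hx⟩ i • (b i : heckeH1 (neben (Lv.θ χ')) Lv.L Lv.N_dvd_L) := by
        have := congrArg Subtype.val (b.sum_repr ⟨x, x, hx⟩)
        rw [Submodule.coe_sum] at this
        exact this.symm
      rw [hx', map_sum]
      refine Submodule.sum_mem _ fun i _ => ?_
      rw [LinearMap.map_smulₛₗ]
      exact Submodule.smul_mem _ _ (Submodule.subset_span ⟨i, rfl⟩)
  have hcard : Module.finrank (ResidueField O) (LinearMap.range eL) =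
      Module.finrank Lv.Λ (LinearMap.range (eLv Lv χ')) := by
    rw [← hspan, finrank_span_eq_card hli, Fintype.card_fin]
  rw [← hcard]
  exact (finrank_addPrimes_eq (RingHom.id (ResidueField O)) Function.surjective_id Lv.qv Lv.inj
    hcovk (one_dvd _) (qv_not_dvd Lv) (L := Lv.L) rfl (one_dvd _) B.a (aLv Lv)
    (fun ℓ hℓ => aLv_of_forall Lv hℓ) (qv_cast_eq_one Lv)
    (fun i => MulChar.one_apply (isUnit_of_subsingleton _))
    (fun i => by rw [aLv_qv]; exact Lv.root i)
    (fun i => by rw [aLv_qv]; exact Lv.distinct i) (eBase_spec B) heL).1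

/-- A basis of the part, of the common rank. -/
def partBasis (hχ' : ∀ u : (ZMod B.N₀)ˣ, χ' u ^ p = 1) :
    Module.Basis (Fin (baseRank B)) Lv.Λ (LinearMap.range (eLv Lv χ')) :=
  haveI := (free_part Lv χ').1
  haveI := (free_part Lv χ').2
  Module.finBasisOfFinrankEq _ _ (finrank_part Lv hχ')

end Fermat.Agent.RT.Assembly.Models

end
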